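/-
Row 37 (S43), block DICT (helper79).  BRIDGE between the two languages for level `Γ₀(N)`:
`GAL.E.W N n` (Kummer model of `J₀(N)[n]`, cluster GAL) and `S48.BB.E.W1 (modularFunctionFieldFull N) n`
(generic Kummer module of `S48/BB`).
-/
import Fermat.Agent.GAL.E.HeckeOp
import Fermat.Agent.S48.BB.E.HeckeOp1

set_option autoImplicit false

noncomputable section

namespace Fermat.Agent.S43.Dict.Bridge

open ModularCurve AlgebraicCurve Fermat.Agent.S24 Fermat.Agent.S24.B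
open Fermat.Agent.GAL.E (GQ)

/-- The field of level `Γ₀(N)`. -/
abbrev F0 (N : ℕ) : IntermediateField ℚ (LaurentSeries ℚ) := modularFunctionFieldFull N

theorem isKum_iff (N n : ℕ) (u : FN N) :
    GAL.E.IsKum N n u ↔ S48.BB.M.IsKum (S48.BB.FB (F0 N)) n u := Iff.rfl

/-- Kummer units. -/
def brK (N n : ℕ) : GAL.E.kum N n ≃* S48.BB.M.kum (S48.BB.FB (F0 N)) n where
  toFun u := ⟨u.1, u.2⟩
  invFun u := ⟨u.1, u.2⟩
  left_inv _ := rfl
  right_inv _ := rfl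
  map_mul' _ _ := rfl

/-- **The bridge.** -/
def brW (N n : ℕ) : GAL.E.W N n ≃+ S48.BB.E.W1 (F0 N) n :=
  MulEquiv.toAdditive <| QuotientGroup.congr _ _ (brK N n) (by
    ext u
    constructor
    · rintro ⟨v, hv, rfl⟩
      exact hv
    · intro hu
      exact ⟨(brK N n).symm u, hu, rfl⟩)

theorem brW_cls {N n : ℕ} (u : GAL.E.kum N n) :
    brW N n (GAL.E.cls u) = S48.BB.M.cls (brK N n u) := rfl

theorem brW_rho {N n : ℕ} (σ : GQ) (x : GAL.E.W N n) :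
    brW N n (GAL.E.rho N n σ x) = S48.BB.E.rho (F0 N) n σ (brW N n x) := by
  obtain ⟨u, rfl⟩ := GAL.E.cls_surjective x
  rw [GAL.E.rho_cls, brW_cls, brW_cls, S48.BB.E.rho_cls]
  rfl

/-- A Hecke operator of `GAL.E` as a Hecke operator with trivial diamond. -/
def heckeOp1 {N ℓ : ℕ} [NeZero ℓ] (H : GAL.E.HeckeOp N ℓ) : S48.BB.E.HeckeOp1 (F0 N) ℓ where
  T := H.T
  D := AlgEquiv.refl
  qExpand_T := H.qExpand_T
  galF_D _ _ := rfl
  isKum := H.isKum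

/-- A Hecke operator with trivial diamond as a Hecke operator of `GAL.E`. -/
def heckeOp {N ℓ : ℕ} [NeZero ℓ] (H : S48.BB.E.HeckeOp1 (F0 N) ℓ) (hD : H.D = AlgEquiv.refl) :
    GAL.E.HeckeOp N ℓ where
  T := H.T
  qExpand_T u := by
    have h := H.qExpand_T u
    rw [hD] at h
    exact h
  isKum := H.isKum

theorem brW_TW {N ℓ : ℕ} [NeZero ℓ] (H : GAL.E.HeckeOp N ℓ) (n : ℕ) (x : GAL.E.W N n) :
    brW N n (H.TW n x) = (heckeOp1 H).TW n (brW N n x) := by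
  obtain ⟨u, rfl⟩ := GAL.E.cls_surjective x
  rw [H.TW_cls, brW_cls, brW_cls, (heckeOp1 H).TW_cls]
  rfl

theorem heckeOp1_DW {N ℓ : ℕ} [NeZero ℓ] (H : GAL.E.HeckeOp N ℓ) (n : ℕ) :
    (heckeOp1 H).DW n = 1 := S48.BB.E.autW_one n

/-- any two Hecke operators with trivial diamond agree -/
theorem TW_eq_of_D {N ℓ : ℕ} [NeZero ℓ] (H : GAL.E.HeckeOp N ℓ)
    (H' : S48.BB.E.HeckeOp1 (F0 N) ℓ) (hD : H'.D = AlgEquiv.refl) (n : ℕ) (x : GAL.E.W N n) :
    brW N n (H.TW n x) = H'.TW n (brW N n x) := by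
  rw [brW_TW]
  have h : (heckeOp1 H).T = H'.T := (heckeOp1 H).T_eq H' hD.symm
  obtain ⟨u, rfl⟩ := GAL.E.cls_surjective x
  rw [brW_cls, (heckeOp1 H).TW_cls, H'.TW_cls]
  refine congrArg S48.BB.M.cls (Subtype.ext (Units.ext ?_))
  show (heckeOp1 H).T _ = H'.T _
  rw [h]

end Fermat.Agent.S43.Dict.Bridge

end
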