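/-
Row 37 (S43), block DICT (architect helper101).  CONTRACT (definitions and named Props only).

Language: `GAL.E` (Kummer model `E.W N p` of `J₀(N)[p]`, `E.rho`, `E.HeckeOp`), `S44.V.IsEig`,
`S36.Norm.N1 / N2` (norms along `α`, `β` from level `M q` to level `M`).

* `IsGen`      : generalised eigenvector for the eigensystem of `E[p]`
* `NodeBad`    : an odd prime `q ∣ abc` is bad for every integral model of the Frey curve
* `NodeEigen`  : `ModularRepOfLevel N` gives a nonzero eigenvector in `E.W N p` (no hypothesis `p ∣ N`)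
* `NodeOld`    : a nonzero eigenvector at level `M` (away from `M q p`) gives `ModularRepOfLevel M`
* `NodeSocle`  : a nonzero generalised eigenvector gives a nonzero eigenvector
* `NodeNorm`   : `N1`, `N2` preserve generalised eigenvectors
-/
import Fermat.Agent.S43.Top3
import Fermat.Agent.S44.V.Top

set_option autoImplicit false

noncomputable section

namespace Fermat.Agent.S43.Dict

open ModularCurve AlgebraicCurve Fermat.Agent.S24 Fermat.Agent.GAL
open WeierstrassCurve WeierstrassCurve.Affine WeierstrassCurve.Affine.Point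
open Fermat.Agent.S44.V (IsEig)
open Fermat.Agent.S36.Norm (N1 N2)

/-- `x ∈ E.W N p` is a generalised eigenvector of all `T_ℓ` (`ℓ` prime, good for `W`, `ℓ ∤ S`) with
eigenvalue `a_ℓ(W)` modulo `p`. -/
def IsGen (P : FreyPackage) (W : WeierstrassCurve ℤ) (N S : ℕ) (x : E.W N P.p) : Prop :=
  ∀ (ℓ : ℕ) [NeZero ℓ], ℓ.Prime → W.IsGoodPrimeFor ℓ → ¬ ℓ ∣ S →
    ∀ (H : E.HeckeOp N ℓ) (a : ℕ), (a : ZMod P.p) = ((W.apOfModel ℓ : ℤ) : ZMod P.p) →
      ∃ k : ℕ, (fun y : E.W N P.p => H.TW P.p y - a • y)^[k] x = 0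

/-- **Node Bad.** -/
def NodeBad : Prop :=
  ∀ (P : FreyPackage) (q : ℕ), q.Prime → q ≠ 2 → (q : ℤ) ∣ P.a * P.b * P.c →
    ∀ W : WeierstrassCurve ℤ, W.IsIntegralModelOf P.freyCurve → ¬ W.IsGoodPrimeFor q

/-- **Node Eigen** (port of `S44.V.nodeEigen`, without `p ∣ N`). -/
def NodeEigen : Prop :=
  ∀ (P : FreyPackage) (N : ℕ) [NeZero N], P.ModularRepOfLevel N →
    ∃ W : WeierstrassCurve ℤ, W.IsIntegralModelOf P.freyCurve ∧
      ∃ x : E.W N P.p, x ≠ 0 ∧ IsEig P W N (N * P.p) x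

/-- **Node Old** (port of `S44.V.nodeOld`; the prime `q` is bad for `W`). -/
def NodeOld : Prop :=
  ∀ (P : FreyPackage) (W : WeierstrassCurve ℤ) (M q : ℕ) [NeZero M],
    W.IsIntegralModelOf P.freyCurve → q.Prime → ¬ W.IsGoodPrimeFor q →
    ∀ y : E.W M P.p, y ≠ 0 → IsEig P W M (M * q * P.p) y → P.ModularRepOfLevel M

/-- **Node Socle.** -/
def NodeSocle : Prop :=
  ∀ (P : FreyPackage) (W : WeierstrassCurve ℤ) (N S : ℕ) [NeZero N], N ∣ S →
    ∀ x : E.W N P.p, x ≠ 0 → IsGen P W N S x → ∃ y : E.W N P.p, y ≠ 0 ∧ IsEig P W N S y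

/-- **Node Norm.** -/
def NodeNorm : Prop :=
  ∀ (P : FreyPackage) (W : WeierstrassCurve ℤ) (M q S : ℕ) [NeZero M] [NeZero q], q.Prime →
    ¬ q ∣ M → M * q ∣ S →
    ∀ x : E.W (M * q) P.p, IsGen P W (M * q) S x →
      IsGen P W M S (N1 M P.p q x) ∧ IsGen P W M S (N2 M P.p q x)

/-- No generalised eigenvector at level `M`. -/
theorem eq_zero_of_isGen (hB : NodeBad) (hO : NodeOld) (hS : NodeSocle) {P : FreyPackage}
    {M q : ℕ} [NeZero M] (h : Hyp2 P M q) {W : WeierstrassCurve ℤ}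
    (hW : W.IsIntegralModelOf P.freyCurve) (y : E.W M P.p)
    (hy : IsGen P W M (M * q * P.p) y) : y = 0 := by
  by_contra hy0
  obtain ⟨z, hz0, hz⟩ := hS P W M (M * q * P.p) ⟨q * P.p, by ring⟩ y hy0 hy
  have hbad : ¬ W.IsGoodPrimeFor q :=
    hB P q h.hq h.hq2 (h.cond.support q h.hq (Dvd.intro_left M rfl)) W hW
  exact h.hnot (hO P W M q hW h.hq hbad z hz0 hz)

/-- The generalised eigenspace at level `M q` is `q`-new. -/
theorem norm_eq_zero_of_isGen (hB : NodeBad) (hO : NodeOld) (hS : NodeSocle) (hN : NodeNorm)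
    {P : FreyPackage} {M q : ℕ} [NeZero M] [NeZero q] (h : Hyp2 P M q) {W : WeierstrassCurve ℤ}
    (hW : W.IsIntegralModelOf P.freyCurve) (x : E.W (M * q) P.p)
    (hx : IsGen P W (M * q) (M * q * P.p) x) : N1 M P.p q x = 0 ∧ N2 M P.p q x = 0 := by
  have hqM : ¬ q ∣ M := by
    rintro ⟨k, rfl⟩
    exact h.cond.sq_not_dvd h.hq ⟨k, by ring⟩
  obtain ⟨h1, h2⟩ := hN P W M q (M * q * P.p) h.hq hqM (Dvd.intro _ rfl) x hx
  exact ⟨eq_zero_of_isGen hB hO hS h hW _ h1, eq_zero_of_isGen hB hO hS h hW _ h2⟩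

end Fermat.Agent.S43.Dict

end
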