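/-
Row 37 (S43), block DICT (architect helper101), node Bad (helper123): an odd prime `q ∣ abc` is bad
for every integral model of the Frey curve.
-/
import Fermat.Agent.S43.Dict.Contract

set_option autoImplicit false

noncomputable section

namespace Fermat.Agent.S43.Dict

open WeierstrassCurve

theorem Bad.frey_c₄ (P : FreyPackage) :
    P.freyCurve.c₄ = (P.a : ℚ) ^ P.p * (P.a : ℚ) ^ P.p + (P.a : ℚ) ^ P.p * (P.b : ℚ) ^ P.p +
      (P.b : ℚ) ^ P.p * (P.b : ℚ) ^ P.p := by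
  simp only [WeierstrassCurve.c₄, WeierstrassCurve.b₂, WeierstrassCurve.b₄, FreyPackage.freyCurve]
  ring

theorem Bad.frey_Δ (P : FreyPackage) :
    256 * P.freyCurve.Δ = ((P.a : ℚ) ^ P.p * (P.b : ℚ) ^ P.p *
      ((P.a : ℚ) ^ P.p + (P.b : ℚ) ^ P.p)) ^ 2 := by
  simp only [WeierstrassCurve.Δ, WeierstrassCurve.b₂, WeierstrassCurve.b₄, WeierstrassCurve.b₆,
    WeierstrassCurve.b₈, FreyPackage.freyCurve]
  ring

/-- the relation between the invariants of an integral model and those of the Frey curve -/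
theorem Bad.relation (P : FreyPackage) (W : WeierstrassCurve ℤ)
    (hW : W.IsIntegralModelOf P.freyCurve) :
    W.c₄ ^ 3 * (P.a ^ P.p * P.b ^ P.p * (P.a ^ P.p + P.b ^ P.p)) ^ 2 =
      256 * (P.a ^ P.p * P.a ^ P.p + P.a ^ P.p * P.b ^ P.p + P.b ^ P.p * P.b ^ P.p) ^ 3 * W.Δ := by
  obtain ⟨C, hC⟩ := hW
  have h4 : ((W.c₄ : ℤ) : ℚ) = ((C.u⁻¹ : ℚˣ) : ℚ) ^ 4 * P.freyCurve.c₄ := by
    rw [← variableChange_c₄, hC, map_c₄]
    rfl
  have hΔ : ((W.Δ : ℤ) : ℚ) = ((C.u⁻¹ : ℚˣ) : ℚ) ^ 12 * P.freyCurve.Δ := by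
    rw [← variableChange_Δ, hC, map_Δ]
    rfl
  have key : ((W.c₄ : ℤ) : ℚ) ^ 3 * ((P.a : ℚ) ^ P.p * (P.b : ℚ) ^ P.p *
      ((P.a : ℚ) ^ P.p + (P.b : ℚ) ^ P.p)) ^ 2 =
      256 * ((P.a : ℚ) ^ P.p * (P.a : ℚ) ^ P.p + (P.a : ℚ) ^ P.p * (P.b : ℚ) ^ P.p +
        (P.b : ℚ) ^ P.p * (P.b : ℚ) ^ P.p) ^ 3 * ((W.Δ : ℤ) : ℚ) := by
    rw [← Bad.frey_Δ, ← Bad.frey_c₄, h4, hΔ]
    ring
  exact_mod_cast key

/-- elementary arithmetic -/
theorem Bad.dvd_of_dvd {q x y : ℤ} (hq : Prime q) (h1 : q ∣ x * y * (x + y))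
    (h2 : q ∣ x * x + x * y + y * y) : q ∣ x ∧ q ∣ y := by
  have hx : q ∣ x → q ∣ y := by
    intro hx
    have h3 : q ∣ y * y := by
      have e : y * y = (x * x + x * y + y * y) - x * (x + y) := by ring
      rw [e]
      exact dvd_sub h2 (Dvd.dvd.mul_right hx _)
    exact (hq.dvd_or_dvd h3).elim id id
  have hy : q ∣ y → q ∣ x := by
    intro hy
    have h3 : q ∣ x * x := by
      have e : x * x = (x * x + x * y + y * y) - y * (x + y) := by ring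
      rw [e]
      exact dvd_sub h2 (Dvd.dvd.mul_right hy _)
    exact (hq.dvd_or_dvd h3).elim id id
  have hxy : q ∣ x ∨ q ∣ y := by
    rcases hq.dvd_or_dvd h1 with h | h
    · exact hq.dvd_or_dvd h
    · have h3 : q ∣ x * y := by
        have e : x * y = (x + y) * (x + y) - (x * x + x * y + y * y) := by ring
        rw [e]
        exact dvd_sub (Dvd.dvd.mul_right h _) h2
      exact hq.dvd_or_dvd h3
  rcases hxy with h | h
  · exact ⟨h, hx h⟩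
  · exact ⟨hy h, h⟩

theorem nodeBad : NodeBad := by
  intro P q hq hq2 hdvd W hW hgood
  apply hgood
  have hqp : Prime (q : ℤ) := Nat.prime_iff_prime_int.mp hq
  have hrel := Bad.relation P W hW
  -- `q` divides `x y (x + y)`
  have h1 : (q : ℤ) ∣ P.a ^ P.p * P.b ^ P.p * (P.a ^ P.p + P.b ^ P.p) := by
    rw [P.hFLT]
    rcases hqp.dvd_or_dvd hdvd with h | h
    · rcases hqp.dvd_or_dvd h with h | h
      · exact Dvd.dvd.mul_right (Dvd.dvd.mul_right (dvd_pow h P.hp0) _) _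
      · exact Dvd.dvd.mul_right (Dvd.dvd.mul_left (dvd_pow h P.hp0) _) _
    · exact Dvd.dvd.mul_left (dvd_pow h P.hp0) _
  have h2 : (q : ℤ) ∣ 256 * (P.a ^ P.p * P.a ^ P.p + P.a ^ P.p * P.b ^ P.p +
      P.b ^ P.p * P.b ^ P.p) ^ 3 * W.Δ := by
    rw [← hrel]
    exact Dvd.dvd.mul_left (dvd_pow h1 two_ne_zero) _
  rcases hqp.dvd_or_dvd h2 with h | h
  · exfalso
    rcases hqp.dvd_or_dvd h with h | h
    · have h3 : (q : ℤ) ∣ 2 ^ 8 := by
        have e : (256 : ℤ) = 2 ^ 8 := by norm_num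
        rwa [e] at h
      have h4 : (q : ℤ) ∣ 2 := hqp.dvd_of_dvd_pow h3
      have h5 : q ∣ 2 := by exact_mod_cast h4
      exact hq2 ((Nat.prime_dvd_prime_iff_eq hq Nat.prime_two).1 h5)
    · have h3 := hqp.dvd_of_dvd_pow h
      obtain ⟨h4, h5⟩ := Bad.dvd_of_dvd hqp h1 h3
      have h6 : (q : ℤ) ∣ gcd P.a P.b :=
        dvd_gcd (hqp.dvd_of_dvd_pow h4) (hqp.dvd_of_dvd_pow h5)
      rw [P.hgcdab] at h6
      exact hqp.not_dvd_one h6
  · exact h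

end Fermat.Agent.S43.Dict

end
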