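/-
Row 37 (S43), block DICT (helper79).  An odd prime `q ∣ a b c` is a prime of bad reduction of EVERY integral
Weierstrass model of the Frey curve (`c₄` of the Frey curve is prime to `q`, `q ∣ Δ`).
-/
import Fermat.Prelude.Def_FLTPrelim_ModularRep
import Mathlib

set_option autoImplicit false

namespace Fermat.Agent.S43.Dict

open WeierstrassCurve

theorem frey_c₄ (P : FreyPackage) :
    P.freyCurve.c₄ = (((P.a ^ P.p) ^ 2 + P.a ^ P.p * P.b ^ P.p + (P.b ^ P.p) ^ 2 : ℤ) : ℚ) := by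
  simp only [FreyPackage.freyCurve, WeierstrassCurve.c₄, WeierstrassCurve.b₂, WeierstrassCurve.b₄]
  push_cast
  ring

theorem frey_Δ_mul (P : FreyPackage) :
    256 * P.freyCurve.Δ = (((P.a ^ P.p * P.b ^ P.p * (P.a ^ P.p + P.b ^ P.p)) ^ 2 : ℤ) : ℚ) := by
  simp only [FreyPackage.freyCurve, WeierstrassCurve.Δ, WeierstrassCurve.b₂, WeierstrassCurve.b₄,
    WeierstrassCurve.b₆, WeierstrassCurve.b₈]
  push_cast
  ring

/-- the integral relation between the invariants of the Frey curve and of an integral model -/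
theorem model_relation (P : FreyPackage) (W : WeierstrassCurve ℤ)
    (hW : W.IsIntegralModelOf P.freyCurve) :
    W.c₄ ^ 3 * (P.a ^ P.p * P.b ^ P.p * (P.a ^ P.p + P.b ^ P.p)) ^ 2 =
      256 * ((P.a ^ P.p) ^ 2 + P.a ^ P.p * P.b ^ P.p + (P.b ^ P.p) ^ 2) ^ 3 * W.Δ := by
  obtain ⟨C, hC⟩ := hW
  have h4 : ((W.c₄ : ℤ) : ℚ) = (C.u⁻¹ : ℚˣ) ^ 4 * P.freyCurve.c₄ := by
    have h := congrArg WeierstrassCurve.c₄ hC
    rw [variableChange_c₄, map_c₄] at h
    exact h.symm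
  have hΔ : ((W.Δ : ℤ) : ℚ) = (C.u⁻¹ : ℚˣ) ^ 12 * P.freyCurve.Δ := by
    have h := congrArg WeierstrassCurve.Δ hC
    rw [variableChange_Δ, map_Δ] at h
    exact h.symm
  have key : ((W.c₄ ^ 3 * (P.a ^ P.p * P.b ^ P.p * (P.a ^ P.p + P.b ^ P.p)) ^ 2 : ℤ) : ℚ) =
      ((256 * ((P.a ^ P.p) ^ 2 + P.a ^ P.p * P.b ^ P.p + (P.b ^ P.p) ^ 2) ^ 3 * W.Δ : ℤ) : ℚ) := by
    rw [Int.cast_mul, Int.cast_pow, ← frey_Δ_mul, h4, Int.cast_mul, Int.cast_mul, Int.cast_pow,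
      ← frey_c₄, hΔ]
    push_cast
    ring
  exact_mod_cast key

theorem not_dvd_frey_c₄ (P : FreyPackage) {q : ℕ} (hq : q.Prime)
    (hqabc : (q : ℤ) ∣ P.a * P.b * P.c) :
    ¬ (q : ℤ) ∣ (P.a ^ P.p) ^ 2 + P.a ^ P.p * P.b ^ P.p + (P.b ^ P.p) ^ 2 := by
  have hp : Prime (q : ℤ) := Nat.prime_iff_prime_int.1 hq
  have hab : ¬ ((q : ℤ) ∣ P.a ∧ (q : ℤ) ∣ P.b) := by
    rintro ⟨h1, h2⟩
    have h3 : (q : ℤ) ∣ gcd P.a P.b := dvd_gcd h1 h2
    rw [P.hgcdab] at h3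
    exact hp.not_dvd_one h3
  intro hc4
  set A := P.a ^ P.p with hA
  set B := P.b ^ P.p with hB
  have hAa : (q : ℤ) ∣ A → (q : ℤ) ∣ P.a := fun h => hp.dvd_of_dvd_pow h
  have hBb : (q : ℤ) ∣ B → (q : ℤ) ∣ P.b := fun h => hp.dvd_of_dvd_pow h
  have caseA : (q : ℤ) ∣ A → False := by
    intro h
    have h1 : (q : ℤ) ∣ B ^ 2 := by
      have : B ^ 2 = (A ^ 2 + A * B + B ^ 2) - A * (A + B) := by ring
      rw [this]
      exact dvd_sub hc4 (h.mul_right _)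
    exact hab ⟨hAa h, hBb (hp.dvd_of_dvd_pow h1)⟩
  have caseB : (q : ℤ) ∣ B → False := by
    intro h
    have h1 : (q : ℤ) ∣ A ^ 2 := by
      have : A ^ 2 = (A ^ 2 + A * B + B ^ 2) - B * (A + B) := by ring
      rw [this]
      exact dvd_sub hc4 (h.mul_right _)
    exact hab ⟨hAa (hp.dvd_of_dvd_pow h1), hBb h⟩
  rcases hp.dvd_or_dvd hqabc with h | h
  · rcases hp.dvd_or_dvd h with h | h
    · exact caseA (dvd_pow h P.hp0)
    · exact caseB (dvd_pow h P.hp0)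
  · have h1 : (q : ℤ) ∣ A + B := by
      rw [hA, hB, P.hFLT]
      exact dvd_pow h P.hp0
    have h2 : (q : ℤ) ∣ A * B := by
      have : A * B = (A + B) * (A + B) - (A ^ 2 + A * B + B ^ 2) := by ring
      rw [this]
      exact dvd_sub (h1.mul_right _) hc4
    rcases hp.dvd_or_dvd h2 with h3 | h3
    · exact caseA h3
    · exact caseB h3

/-- **An odd prime dividing `a b c` is bad for every integral model of the Frey curve.** -/
theorem not_isGoodPrimeFor (P : FreyPackage) {q : ℕ} (hq : q.Prime) (hq2 : q ≠ 2)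
    (hqabc : (q : ℤ) ∣ P.a * P.b * P.c) (W : WeierstrassCurve ℤ)
    (hW : W.IsIntegralModelOf P.freyCurve) : ¬ W.IsGoodPrimeFor q := by
  have hp : Prime (q : ℤ) := Nat.prime_iff_prime_int.1 hq
  intro hgood
  apply hgood
  have hrel := model_relation P W hW
  have h1 : (q : ℤ) ∣ P.a ^ P.p * P.b ^ P.p * (P.a ^ P.p + P.b ^ P.p) := by
    rcases hp.dvd_or_dvd hqabc with h | h
    · rcases hp.dvd_or_dvd h with h | h
      · exact ((dvd_pow h P.hp0).mul_right _).mul_right _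
      · exact ((dvd_pow h P.hp0).mul_left _).mul_right _
    · rw [P.hFLT]
      exact (dvd_pow h P.hp0).mul_left _
  have h2 : (q : ℤ) ∣ 256 * ((P.a ^ P.p) ^ 2 + P.a ^ P.p * P.b ^ P.p + (P.b ^ P.p) ^ 2) ^ 3 * W.Δ := by
    rw [← hrel]
    exact (dvd_pow h1 two_ne_zero).mul_left _
  rcases hp.dvd_or_dvd h2 with h3 | h3
  · rcases hp.dvd_or_dvd h3 with h4 | h4
    · exfalso
      have h5 : (q : ℤ) ∣ 2 := by
        have : (256 : ℤ) = 2 ^ 8 := by norm_num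
        rw [this] at h4
        exact hp.dvd_of_dvd_pow h4
      have h6 : q ∣ 2 := by exact_mod_cast h5
      exact hq2 ((Nat.prime_dvd_prime_iff_eq hq Nat.prime_two).1 h6)
    · exact absurd (hp.dvd_of_dvd_pow h4) (not_dvd_frey_c₄ P hq hqabc)
  · exact h3

end Fermat.Agent.S43.Dict
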