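/-
Row 37 (S43), block DICT, complement to node Bad (helper20): `2` is a bad prime for EVERY integral model of the Frey curve.
So a good prime is odd (field `two` of `Ctx.E0Bridge`, `Glue/Conc/E0.lean`).

Proof: `c₄(W)³ (a^p b^p (a^p + b^p))² = 2⁸ c₄(E)³ Δ(W)` (`Bad.relation`), `c₄(E) = a^{2p} + a^p b^p + b^{2p}` is odd and
`2^{10} ∣ b^{2p}`.
-/
import Fermat.Agent.S43.Dict.Bad

set_option autoImplicit false

namespace Fermat.Agent.S43.Dict

open WeierstrassCurve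

theorem BadTwo.two_dvd_b (P : FreyPackage) : (2 : ℤ) ∣ P.b :=
  (ZMod.intCast_zmod_eq_zero_iff_dvd P.b 2).1 P.hb2

theorem BadTwo.not_two_dvd_a (P : FreyPackage) : ¬ (2 : ℤ) ∣ P.a := by
  intro h
  have h2 : (2 : ℤ) ∣ gcd P.a P.b := dvd_gcd h (BadTwo.two_dvd_b P)
  rw [P.hgcdab] at h2
  exact absurd h2 (by norm_num)

/-- **`2` is bad for every integral model of the Frey curve.** -/
theorem two_dvd_Δ (P : FreyPackage) (W : WeierstrassCurve ℤ)
    (hW : W.IsIntegralModelOf P.freyCurve) : (2 : ℤ) ∣ W.Δ := by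
  have hrel := Bad.relation P W hW
  have h2 : Prime (2 : ℤ) := Int.prime_two
  obtain ⟨b', hb'⟩ := BadTwo.two_dvd_b P
  have ha : ¬ (2 : ℤ) ∣ P.a := BadTwo.not_two_dvd_a P
  -- `b ^ p = 2 ^ 5 * t`
  obtain ⟨k, hk⟩ : ∃ k, P.p = 5 + k := ⟨P.p - 5, by have := P.hp5; omega⟩
  have hbp : P.b ^ P.p = 2 ^ 5 * (2 ^ k * b' ^ P.p) := by
    rw [hb', mul_pow]
    conv_lhs => rw [hk, pow_add]
    rw [← hk]
    ring
  set t : ℤ := 2 ^ k * b' ^ P.p with ht
  set x : ℤ := P.a ^ P.p with hx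
  have hxodd : ¬ (2 : ℤ) ∣ x := fun h => ha (h2.dvd_of_dvd_pow h)
  rw [hbp] at hrel
  -- the odd factor
  set c : ℤ := x * x + x * (2 ^ 5 * t) + 2 ^ 5 * t * (2 ^ 5 * t) with hc
  have hcodd : ¬ (2 : ℤ) ∣ c := by
    intro h
    have h3 : (2 : ℤ) ∣ x * x := by
      have e : x * x = c - 2 * (x * (2 ^ 4 * t) + 2 ^ 4 * t * (2 ^ 5 * t)) := by
        rw [hc]; ring
      rw [e]
      exact dvd_sub h (Dvd.intro _ rfl)
    exact hxodd ((h2.dvd_or_dvd h3).elim id id)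
  -- cancel `2 ^ 8`
  have hrel' : 256 * (4 * (W.c₄ ^ 3 * (x * t * (x + 2 ^ 5 * t)) ^ 2)) = 256 * (c ^ 3 * W.Δ) := by
    have e1 : 256 * (4 * (W.c₄ ^ 3 * (x * t * (x + 2 ^ 5 * t)) ^ 2)) =
        W.c₄ ^ 3 * (x * (2 ^ 5 * t) * (x + 2 ^ 5 * t)) ^ 2 := by ring
    rw [e1, hrel]
    ring
  have hrel'' : 4 * (W.c₄ ^ 3 * (x * t * (x + 2 ^ 5 * t)) ^ 2) = c ^ 3 * W.Δ :=
    mul_left_cancel₀ (by norm_num) hrel'
  have h4 : (2 : ℤ) ∣ c ^ 3 * W.Δ := by
    rw [← hrel'']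
    exact Dvd.dvd.mul_right (by norm_num) _
  rcases h2.dvd_or_dvd h4 with h | h
  · exact absurd (h2.dvd_of_dvd_pow h) hcodd
  · exact h

theorem not_isGoodPrimeFor_two (P : FreyPackage) (W : WeierstrassCurve ℤ)
    (hW : W.IsIntegralModelOf P.freyCurve) : ¬ W.IsGoodPrimeFor 2 :=
  fun h => h (by exact_mod_cast two_dvd_Δ P W hW)

/-- a good prime of an integral model of the Frey curve is odd -/
theorem ne_two_of_isGoodPrimeFor (P : FreyPackage) (W : WeierstrassCurve ℤ)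
    (hW : W.IsIntegralModelOf P.freyCurve) {l : ℕ} (hl : W.IsGoodPrimeFor l) : l ≠ 2 := by
  rintro rfl
  exact not_isGoodPrimeFor_two P W hW hl

/-- alias (name used by `Glue/Conc/Two.lean`; the file has been overwritten several times: BOTH sets of names are kept). -/
theorem not_good_two (P : FreyPackage) (W : WeierstrassCurve ℤ)
    (hW : W.IsIntegralModelOf P.freyCurve) : ¬ W.IsGoodPrimeFor 2 := not_isGoodPrimeFor_two P W hW

/-- alias (name used by `Glue/Conc/Two.lean`). -/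
theorem ne_two_of_good (P : FreyPackage) (W : WeierstrassCurve ℤ)
    (hW : W.IsIntegralModelOf P.freyCurve) {ℓ : ℕ} (h : W.IsGoodPrimeFor ℓ) : ℓ ≠ 2 :=
  ne_two_of_isGoodPrimeFor P W hW h

end Fermat.Agent.S43.Dict
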