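/-
Row 37 (S43), block DICT (i), first half (helper79): `ModularRepOfLevel N` gives a nonzero eigenvector in the Kummer
model `E.W N p` for the `T_ℓ`, `ℓ` good, `ℓ ∤ N p`.  Port of `S44.V.nodeEigen` WITHOUT the hypothesis `p ∣ N`.
-/
import Fermat.Agent.S44.V.Eigen
import Fermat.Agent.GAL.Mult.Final

set_option autoImplicit false

noncomputable section

namespace Fermat.Agent.S43.Dict

open ModularCurve AlgebraicCurve Fermat.Agent.S24 Fermat.Agent.GAL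
open CuspForm CongruenceSubgroup
open Fermat.Agent.Lib.HeckeHom Fermat.Agent.S29.Eigen
open Fermat.Agent.S16.Lift (homPE card_homPE)
open Fermat.Agent.S44.V (IsEig)

local notation "Zbar" => integralClosure ℤ ℂ

/-- weakening of the set of primes -/
theorem IsEig.mono {P : FreyPackage} {W : WeierstrassCurve ℤ} {N S S' : ℕ} {x : E.W N P.p}
    (h : IsEig P W N S x) (hS : S ∣ S') : IsEig P W N S' x :=
  fun ℓ _ hℓ hg hℓS H a ha => h ℓ hℓ hg (fun hd => hℓS (hd.trans hS)) H a ha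

/-- **DICT (i), first half.** -/
theorem exists_isEig (P : FreyPackage) (N : ℕ) [NeZero N] (hmod : P.ModularRepOfLevel N) :
    ∃ W : WeierstrassCurve ℤ, W.IsIntegralModelOf P.freyCurve ∧
      ∃ x : E.W N P.p, x ≠ 0 ∧ IsEig P W N (N * P.p) x := by
  obtain ⟨f, W, 𝔪, hf, hW, h𝔪, hp𝔪, hcong⟩ := hmod
  refine ⟨W, hW, ?_⟩
  have hp : P.p.Prime := P.pp
  obtain ⟨mult, hmult⟩ := Mult.multStatement N P.p hp.pos
  have hic : IsIntegrallyClosed Zbar := IsIntegrallyClosed.of_isIntegrallyClosedIn Zbar ℂ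
  let χ : heckeAlgebra N 2 (∅ : Set ℕ) →+* Zbar := eigenCharZ hf ∅
  let θ : MvPolynomial ℕ ℤ →+* Zbar ⧸ 𝔪 :=
    (Ideal.Quotient.mk 𝔪).comp (MvPolynomial.aeval fun ℓ => χ (tOf N ∅ ℓ)).toRingHom
  letI := moduleHA N (∅ : Set ℕ) P.p
  have hfin : Finite (homPE N (ZMod P.p)) := by
    apply Nat.finite_of_card_ne_zero
    rw [card_homPE N P.p hp.pos]
    exact (pow_pos hp.pos _).ne'
  have hnt : Nontrivial (Zbar ⧸ 𝔪) := Ideal.Quotient.nontrivial_iff.2 h𝔪.ne_top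
  obtain ⟨y, hy0, hy⟩ := Fermat.Agent.S29.Socle.exists_ne_zero_killed
    (M := homPE N (ZMod P.p)) (RingHom.ker θ) (RingHom.ker_ne_top θ) (by
      intro Q hQ
      have h1 := aeval_mem_span_of_forall_smul_eq_zero N (∅ : Set ℕ) P.p hp.pos χ Q hQ
      rw [RingHom.mem_ker]
      refine Ideal.Quotient.eq_zero_iff_mem.2 ?_
      exact (Ideal.span_singleton_le_iff_mem 𝔪).2 hp𝔪 h1)
  refine ⟨mult.symm y, fun h => hy0 ?_, ?_⟩
  · rw [← mult.apply_symm_apply y, h, map_zero]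
  intro ℓ _ hℓ hgood hℓS H a ha
  have hℓN : ¬ ℓ ∣ N := fun h => hℓS (h.mul_right _)
  have hℓp : ℓ ≠ P.p := fun h => hℓS (h ▸ Dvd.intro_left N rfl)
  obtain ⟨a', ha', hmem⟩ := hcong ℓ hℓ hgood hℓN hℓp
  have hχ : χ (tOf N ∅ ℓ) = a' := by
    apply Subtype.ext
    rw [tOf_eq N ∅ hℓ hℓN (Set.notMem_empty ℓ), coe_eigenCharZ, eigenChar_T, ha']
  have hdvd : ((W.apOfModel ℓ : ℤ) : Zbar) - ((a : ℕ) : Zbar) ∈ 𝔪 := by
    have h1 : ((P.p : ℕ) : ℤ) ∣ W.apOfModel ℓ - (a : ℤ) := by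
      rw [← ZMod.intCast_zmod_eq_zero_iff_dvd]
      push_cast
      rw [ha, sub_self]
    obtain ⟨c, hc⟩ := h1
    have h2 : ((W.apOfModel ℓ : ℤ) : Zbar) - ((a : ℕ) : Zbar) = (P.p : Zbar) * (c : Zbar) := by
      have := congrArg (fun z : ℤ => (z : Zbar)) hc
      push_cast at this
      exact this
    rw [h2]
    exact 𝔪.mul_mem_right _ hp𝔪
  have hker : (MvPolynomial.X ℓ - (a : MvPolynomial ℕ ℤ)) ∈ RingHom.ker θ := by
    rw [RingHom.mem_ker]
    refine Ideal.Quotient.eq_zero_iff_mem.2 ?_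
    have h3 : (MvPolynomial.aeval fun ℓ => χ (tOf N ∅ ℓ)).toRingHom
        (MvPolynomial.X ℓ - (a : MvPolynomial ℕ ℤ)) =
        (a' - ((W.apOfModel ℓ : ℤ) : Zbar)) + (((W.apOfModel ℓ : ℤ) : Zbar) - ((a : ℕ) : Zbar)) := by
      rw [map_sub, map_natCast]
      show MvPolynomial.aeval (fun ℓ => χ (tOf N ∅ ℓ)) (MvPolynomial.X ℓ) - _ = _
      rw [MvPolynomial.aeval_X, hχ]
      ring
    rw [h3]
    exact 𝔪.add_mem hmem hdvd
  have hXy : (MvPolynomial.X ℓ : MvPolynomial ℕ ℤ) • y = a • y := by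
    have h4 := hy _ hker
    rw [sub_smul, Nat.cast_smul_eq_nsmul, sub_eq_zero] at h4
    exact h4
  apply mult.injective
  apply Subtype.ext
  rw [hmult ℓ hℓ hℓN H (mult.symm y), mult.apply_symm_apply, map_nsmul, mult.apply_symm_apply,
    ← hXy, coe_X_smul N ∅ P.p hℓ hℓN (Set.notMem_empty ℓ)]

end Fermat.Agent.S43.Dict

end
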