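/-
Row 37 (S43), block DICT (architect helper101).  THE DICTIONARY FOR A GENERAL EXPONENT `n = p ^ k`
(everything proved, no node hypotheses).

* `IsGenN P W N S n x`     : `x ∈ E.W N n` is a generalised eigenvector of all `T_ℓ` (`ℓ` good, `ℓ ∤ S`) for the
                             eigensystem `a_ℓ(W) mod p`   (`IsGenN .. P.p = IsGen`, by `Iff.rfl`)
* `modularRepOfLevel_of_isGenN` : a nonzero generalised eigenvector in `E.W M (p ^ k)` gives `ModularRepOfLevel M`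
                             (no socle lemma: the annihilator lies in a maximal ideal, which is prime)
* `eq_zero_of_isGenN`      : `Hyp2 P M q` : no `m`-part at level `M`, exponent `p ^ k`
* `IsGenN.N1`, `IsGenN.N2` : the two norms preserve the `m`-part
* `norm_eq_zero_of_isGenN` : the `m`-part at level `M q` is `q`-new, exponent `p ^ k`
* `exists_isEigN`          : `ModularRepOfLevel N` gives a nonzero EIGENVECTOR in `E.W N (p ^ k)`, `k ≥ 1`
* `exists_isGenN`          : hence the `m`-part of `E.W N (p ^ k)` is nonzero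
-/
import Fermat.Agent.S43.Dict.Contract
import Fermat.Agent.S43.Dict.Bad
import Fermat.Agent.S44.V.Old
import Fermat.Agent.S44.V.NormBeta
import Fermat.Agent.GAL.Mult.Final
import Fermat.Agent.S29.Eigen
import Fermat.Agent.S29.Socle

set_option autoImplicit false
set_option linter.style.haveILetI false

noncomputable section

namespace Fermat.Agent.S43.Dict

open ModularCurve AlgebraicCurve Fermat.Agent.S24 Fermat.Agent.GAL
open WeierstrassCurve WeierstrassCurve.Affine WeierstrassCurve.Affine.Point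
open CongruenceSubgroup CuspForm
open Fermat.Agent.Lib.HeckeHom Fermat.Agent.S49 Fermat.Agent.S29.Eigen
open Fermat.Agent.S16.Lift (homPE card_homPE)
open Fermat.Agent.S36.Norm (N1 N2)
open Fermat.Agent.S44.V (oldAnn mem_oldAnn)

local notation "Zbar" => integralClosure ℤ ℂ

/-- `x ∈ E.W N n` is a generalised eigenvector of all `T_ℓ` (`ℓ` prime, good for `W`, `ℓ ∤ S`) with
eigenvalue `a_ℓ(W)` modulo `p`. -/
def IsGenN (P : FreyPackage) (W : WeierstrassCurve ℤ) (N S n : ℕ) (x : E.W N n) : Prop :=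
  ∀ (ℓ : ℕ) [NeZero ℓ], ℓ.Prime → W.IsGoodPrimeFor ℓ → ¬ ℓ ∣ S →
    ∀ (H : E.HeckeOp N ℓ) (a : ℕ), (a : ZMod P.p) = ((W.apOfModel ℓ : ℤ) : ZMod P.p) →
      ∃ k : ℕ, (fun y : E.W N n => H.TW n y - a • y)^[k] x = 0

theorem isGenN_iff_isGen {P : FreyPackage} {W : WeierstrassCurve ℤ} {N S : ℕ} {x : E.W N P.p} :
    IsGenN P W N S P.p x ↔ IsGen P W N S x := Iff.rfl

/-- `x ∈ E.W N n` is an eigenvector of all `T_ℓ`. -/
def IsEigN (P : FreyPackage) (W : WeierstrassCurve ℤ) (N S n : ℕ) (x : E.W N n) : Prop :=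
  ∀ (ℓ : ℕ) [NeZero ℓ], ℓ.Prime → W.IsGoodPrimeFor ℓ → ¬ ℓ ∣ S →
    ∀ (H : E.HeckeOp N ℓ) (a : ℕ), (a : ZMod P.p) = ((W.apOfModel ℓ : ℤ) : ZMod P.p) →
      H.TW n x = a • x

theorem IsEigN.isGenN {P : FreyPackage} {W : WeierstrassCurve ℤ} {N S n : ℕ} {x : E.W N n}
    (h : IsEigN P W N S n x) : IsGenN P W N S n x := fun ℓ _ hℓ hg hS H a ha =>
  ⟨1, by rw [Function.iterate_one]; exact sub_eq_zero.2 (h ℓ hℓ hg hS H a ha)⟩

theorem IsGenN.mono {P : FreyPackage} {W : WeierstrassCurve ℤ} {N S S' n : ℕ} {x : E.W N n}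
    (h : IsGenN P W N S n x) (hS : S ∣ S') : IsGenN P W N S' n x := fun ℓ _ hℓ hg hS' H a ha =>
  h ℓ hℓ hg (fun h' => hS' (h'.trans hS)) H a ha

/-- An additive map intertwining `T'` and `T` intertwines the iterates of `T' - a` and `T - a`. -/
theorem map_iterate_sub {X Y : Type*} [AddCommGroup X] [AddCommGroup Y] (f : X →+ Y)
    (T' : X → X) (T : Y → Y) (h : ∀ x, f (T' x) = T (f x)) (a k : ℕ) (x : X) :
    f ((fun y => T' y - a • y)^[k] x) = (fun y => T y - a • y)^[k] (f x) := by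
  induction k with
  | zero => rfl
  | succ k ih =>
    rw [Function.iterate_succ_apply', Function.iterate_succ_apply', map_sub, h, map_nsmul, ih]

/-- Iterates against powers in a ring acting on the target. -/
theorem map_iterate_eq_pow {R X Y : Type*} [Ring R] [AddCommGroup X] [AddCommGroup Y]
    (A : R →+* Module.End ℤ Y) (f : X ≃+ Y) (T : X → X) (t : R)
    (h : ∀ w, f (T w) = A t (f w)) (i : ℕ) (y : X) : f (T^[i] y) = A (t ^ i) (f y) := by
  induction i with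
  | zero => rw [pow_zero, map_one, Module.End.one_apply]; rfl
  | succ i ih =>
    rw [Function.iterate_succ_apply', h, ih, pow_succ', map_mul, Module.End.mul_apply]

set_option maxHeartbeats 1000000 in
/-- **Old, general exponent.**  A nonzero generalised eigenvector at level `M`, exponent `p ^ k`, away
from `M q p` (`q` bad for `W`), gives `ModularRepOfLevel M`. -/
theorem modularRepOfLevel_of_isGenN (P : FreyPackage) (W : WeierstrassCurve ℤ) (M q k : ℕ)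
    [NeZero M] (hW : W.IsIntegralModelOf P.freyCurve) (hq : q.Prime)
    (hbad : ¬ W.IsGoodPrimeFor q) (y : E.W M (P.p ^ k)) (hy : y ≠ 0)
    (heig : IsGenN P W M (M * q * P.p) (P.p ^ k) y) : P.ModularRepOfLevel M := by
  haveI : FiniteDimensional ℂ (CuspForm (Gamma0 M) 2) := finiteDimensional_cuspForm
  haveI : Module.Finite ℤ (heckeAlgebra M 2 ∅) := finite_heckeAlgebra M ∅
  obtain ⟨mult, hmult⟩ := GAL.Mult.multStatement M (P.p ^ k) (pow_pos P.hppos k)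
  set z : homPE M (ZMod (P.p ^ k)) := mult y with hz
  have hz0 : z ≠ 0 := by
    intro h
    apply hy
    apply mult.injective
    rw [← hz, h, _root_.map_zero]
  have hne : oldAnn M (P.p ^ k) z ≠ ⊤ := by
    intro h
    have h1 : (1 : heckeAlgebra M 2 ∅) ∈ oldAnn M (P.p ^ k) z := h ▸ Submodule.mem_top
    rw [mem_oldAnn, map_one, Module.End.one_apply] at h1
    exact hz0 h1
  obtain ⟨𝔪, h𝔪, hle⟩ := Ideal.exists_le_maximal _ hne
  haveI : 𝔪.IsPrime := h𝔪.isPrime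
  have hp𝔪 : ((P.p : ℕ) : heckeAlgebra M 2 ∅) ∈ 𝔪 := by
    have h0 : (((P.p ^ k : ℕ) : ℕ) : heckeAlgebra M 2 ∅) ∈ 𝔪 := by
      apply hle
      rw [mem_oldAnn, map_natCast]
      have h1 : (((P.p ^ k : ℕ) : ℕ) : Module.End ℤ (homPE M (ZMod (P.p ^ k)))) z
          = (P.p ^ k) • z := by
        rw [← nsmul_one, LinearMap.smul_apply, Module.End.one_apply]
      rw [h1]
      exact nsmul_homPE_eq_zero M (P.p ^ k) z
    rw [Nat.cast_pow] at h0
    exact Ideal.IsPrime.mem_of_pow_mem inferInstance k h0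
  have hT : ∀ (ℓ : ℕ) (hℓ : ℓ.Prime) (hℓN : ¬ ℓ ∣ M), W.IsGoodPrimeFor ℓ → ℓ ≠ P.p →
      ∀ a : ℕ, (a : ZMod P.p) = ((W.apOfModel ℓ : ℤ) : ZMod P.p) →
      heckeAlgebra.T hℓ hℓN (Set.notMem_empty ℓ) - (a : heckeAlgebra M 2 ∅) ∈ 𝔪 := by
    intro ℓ hℓ hℓN hgood hℓp a ha
    haveI : NeZero ℓ := ⟨hℓ.ne_zero⟩
    obtain ⟨H⟩ := GAL.Mult.heckeOpStatement M ℓ hℓ hℓN
    have hℓS : ¬ ℓ ∣ M * q * P.p := by
      intro h
      rcases (Nat.Prime.dvd_mul hℓ).1 h with h | h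
      · rcases (Nat.Prime.dvd_mul hℓ).1 h with h | h
        · exact hℓN h
        · exact hbad (((Nat.prime_dvd_prime_iff_eq hℓ hq).1 h) ▸ hgood)
      · exact hℓp ((Nat.prime_dvd_prime_iff_eq hℓ P.pp).1 h)
    obtain ⟨j, hj⟩ := heig ℓ hℓ hgood hℓS H a ha
    have hstep : ∀ w : E.W M (P.p ^ k), mult (H.TW (P.p ^ k) w) =
        actMod M ∅ (P.p ^ k) (heckeAlgebra.T hℓ hℓN (Set.notMem_empty ℓ)) (mult w) := by
      intro w
      apply Subtype.ext
      rw [coe_actMod_T, hmult ℓ hℓ hℓN H w]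
    have hstep' : ∀ w : E.W M (P.p ^ k), mult (H.TW (P.p ^ k) w - a • w) =
        actMod M ∅ (P.p ^ k)
          (heckeAlgebra.T hℓ hℓN (Set.notMem_empty ℓ) - (a : heckeAlgebra M 2 ∅)) (mult w) := by
      intro w
      have h1 : actMod M ∅ (P.p ^ k) (a : heckeAlgebra M 2 ∅) (mult w) = a • mult w := by
        rw [map_natCast, ← nsmul_one, LinearMap.smul_apply, Module.End.one_apply]
      rw [map_sub, hstep, map_nsmul, map_sub, LinearMap.sub_apply, h1]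
    have hmem : (heckeAlgebra.T hℓ hℓN (Set.notMem_empty ℓ) - (a : heckeAlgebra M 2 ∅)) ^ j
        ∈ 𝔪 := by
      apply hle
      rw [mem_oldAnn, hz, ← map_iterate_eq_pow (actMod M ∅ (P.p ^ k)) mult _ _ hstep' j y, hj,
        _root_.map_zero]
    exact Ideal.IsPrime.mem_of_pow_mem inferInstance j hmem
  obtain ⟨v, χ, hv, hχ, hker⟩ := exists_eigenvector_ker_le
    (heckeAlgebra M 2 ∅).val.toRingHom Subtype.val_injective 𝔪
  obtain ⟨f, hf, hfχ⟩ := exists_normalizedEigenform_of_eigenvector v hv χ hχ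
  obtain ⟨𝔪', hmax, hp', hm'⟩ := exists_maximal_over χ 𝔪 hker P.p P.pp hp𝔪
  refine ⟨f, W, 𝔪', hf, hW, hmax, hp', fun ℓ hℓ hgood hℓN hℓp => ?_⟩
  have hint : IsIntegral ℤ (χ (heckeAlgebra.T hℓ hℓN (Set.notMem_empty ℓ))) :=
    (Algebra.IsIntegral.isIntegral (R := ℤ)
      (heckeAlgebra.T hℓ hℓN (Set.notMem_empty ℓ) : heckeAlgebra M 2 ∅)).map χ.toIntAlgHom
  refine ⟨⟨_, hint⟩, (hfχ ℓ hℓ hℓN).symm, ?_⟩
  haveI : NeZero P.p := ⟨P.pp.ne_zero⟩
  set a : ℕ := (((W.apOfModel ℓ : ℤ) : ZMod P.p)).val with ha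
  have ha' : (a : ZMod P.p) = ((W.apOfModel ℓ : ℤ) : ZMod P.p) := ZMod.natCast_zmod_val _
  have h1 : (⟨_, hint⟩ : integralClosure ℤ ℂ) - (a : integralClosure ℤ ℂ) ∈ 𝔪' := by
    refine hm' _ (hT ℓ hℓ hℓN hgood hℓp a ha') _ ?_
    simp
  have h2 : (a : integralClosure ℤ ℂ) - ((W.apOfModel ℓ : ℤ) : integralClosure ℤ ℂ) ∈ 𝔪' := by
    have h3 : ((P.p : ℕ) : ℤ) ∣ (a : ℤ) - W.apOfModel ℓ := by
      rw [← ZMod.intCast_zmod_eq_zero_iff_dvd ((a : ℤ) - W.apOfModel ℓ) P.p]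
      push_cast
      rw [ha', sub_self]
    obtain ⟨c, hc⟩ := h3
    have h4 : (a : integralClosure ℤ ℂ) - ((W.apOfModel ℓ : ℤ) : integralClosure ℤ ℂ)
        = (P.p : integralClosure ℤ ℂ) * (c : integralClosure ℤ ℂ) := by
      have := congrArg (Int.cast : ℤ → integralClosure ℤ ℂ) hc
      push_cast at this
      exact this
    rw [h4]
    exact Ideal.mul_mem_right _ _ hp'
  have := Ideal.add_mem _ h1 h2
  rwa [sub_add_sub_cancel] at this

/-- `q` is bad for every integral model. -/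
theorem not_good_of_hyp2 {P : FreyPackage} {M q : ℕ} (h : Hyp2 P M q) {W : WeierstrassCurve ℤ}
    (hW : W.IsIntegralModelOf P.freyCurve) : ¬ W.IsGoodPrimeFor q :=
  nodeBad P q h.hq h.hq2 (h.cond.support q h.hq (Dvd.intro_left M rfl)) W hW

theorem not_dvd_of_hyp2 {P : FreyPackage} {M q : ℕ} (h : Hyp2 P M q) : ¬ q ∣ M := by
  rintro ⟨k, rfl⟩
  exact h.cond.sq_not_dvd h.hq ⟨k, by ring⟩

/-- **No `m`-part at level `M`**, exponent `p ^ k`. -/
theorem eq_zero_of_isGenN {P : FreyPackage} {M q : ℕ} [NeZero M] (h : Hyp2 P M q)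
    {W : WeierstrassCurve ℤ} (hW : W.IsIntegralModelOf P.freyCurve) (k : ℕ)
    (y : E.W M (P.p ^ k)) (hy : IsGenN P W M (M * q * P.p) (P.p ^ k) y) : y = 0 := by
  by_contra hy0
  exact h.hnot (modularRepOfLevel_of_isGenN P W M q k hW h.hq (not_good_of_hyp2 h hW) y hy0 hy)

/-- The norm along `α` preserves the `m`-part. -/
theorem IsGenN.N1 {P : FreyPackage} {W : WeierstrassCurve ℤ} {M q S n : ℕ} [NeZero M] [NeZero q]
    (hS : M * q ∣ S) {x : E.W (M * q) n} (hx : IsGenN P W (M * q) S n x) :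
    IsGenN P W M S n (N1 M n q x) := by
  intro ℓ _ hℓ hgood hℓS H a ha
  have hℓN : ¬ ℓ ∣ M * q := fun h => hℓS (h.trans hS)
  have hℓM : ¬ ℓ ∣ M := fun h => hℓN (h.mul_right _)
  obtain ⟨H'⟩ := E.nonempty_heckeOp (M * q) ℓ hℓ hℓN
  obtain ⟨k, hk⟩ := hx ℓ hℓ hgood hℓS H' a ha
  refine ⟨k, ?_⟩
  rw [← map_iterate_sub (Fermat.Agent.S36.Norm.N1 M n q) (H'.TW n) (H.TW n)
    (fun y => Fermat.Agent.S36.Norm.N1_TW hℓ hℓN (E.qExpand_heckeF M ℓ hℓ hℓM)
      (E.qExpand_heckeF (M * q) ℓ hℓ hℓN) H H' y) a k x, hk, _root_.map_zero]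

/-- The norm along `β` preserves the `m`-part. -/
theorem IsGenN.N2 {P : FreyPackage} {W : WeierstrassCurve ℤ} {M q S n : ℕ} [NeZero M] [NeZero q]
    (hn : 0 < n) (hq : q.Prime) (hS : M * q ∣ S) {x : E.W (M * q) n}
    (hx : IsGenN P W (M * q) S n x) : IsGenN P W M S n (N2 M n q x) := by
  intro ℓ _ hℓ hgood hℓS H a ha
  have hℓN : ¬ ℓ ∣ M * q := fun h => hℓS (h.trans hS)
  obtain ⟨H'⟩ := E.nonempty_heckeOp (M * q) ℓ hℓ hℓN
  obtain ⟨k, hk⟩ := hx ℓ hℓ hgood hℓS H' a ha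
  refine ⟨k, ?_⟩
  rw [← map_iterate_sub (Fermat.Agent.S36.Norm.N2 M n q) (H'.TW n) (H.TW n)
    (fun y => Fermat.Agent.S44.V.N2_TW' hn hq hℓ hℓN H H' y) a k x, hk, _root_.map_zero]

/-- **The `m`-part at level `M q` is `q`-new**, exponent `p ^ k`. -/
theorem norm_eq_zero_of_isGenN {P : FreyPackage} {M q : ℕ} [NeZero M] [NeZero q]
    (h : Hyp2 P M q) {W : WeierstrassCurve ℤ} (hW : W.IsIntegralModelOf P.freyCurve) (k : ℕ)
    (x : E.W (M * q) (P.p ^ k)) (hx : IsGenN P W (M * q) (M * q * P.p) (P.p ^ k) x) :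
    N1 M (P.p ^ k) q x = 0 ∧ N2 M (P.p ^ k) q x = 0 :=
  ⟨eq_zero_of_isGenN h hW k _ (hx.N1 (Dvd.intro _ rfl)),
    eq_zero_of_isGenN h hW k _ (hx.N2 (pow_pos P.hppos k) h.hq (Dvd.intro _ rfl))⟩

/-- **Eigen, general exponent.**  One integral model `W` and, for every `k ≥ 1`, a nonzero eigenvector in
`E.W N (p ^ k)`. -/
theorem exists_isEigN (P : FreyPackage) (N : ℕ) [NeZero N] (hmod : P.ModularRepOfLevel N) :
    ∃ W : WeierstrassCurve ℤ, W.IsIntegralModelOf P.freyCurve ∧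
      ∀ k : ℕ, k ≠ 0 → ∃ x : E.W N (P.p ^ k), x ≠ 0 ∧ IsEigN P W N (N * P.p) (P.p ^ k) x := by
  obtain ⟨f, W, 𝔪, hf, hW, h𝔪, hp𝔪, hcong⟩ := hmod
  refine ⟨W, hW, fun k hk => ?_⟩
  have hp : P.p.Prime := P.pp
  have hn : 0 < P.p ^ k := pow_pos hp.pos k
  obtain ⟨mult, hmult⟩ := GAL.Mult.multStatement N (P.p ^ k) hn
  have hic : IsIntegrallyClosed Zbar := IsIntegrallyClosed.of_isIntegrallyClosedIn Zbar ℂ
  let χ : heckeAlgebra N 2 (∅ : Set ℕ) →+* Zbar := eigenCharZ hf ∅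
  let θ : MvPolynomial ℕ ℤ →+* Zbar ⧸ 𝔪 :=
    (Ideal.Quotient.mk 𝔪).comp (MvPolynomial.aeval fun ℓ => χ (tOf N ∅ ℓ)).toRingHom
  letI := moduleHA N (∅ : Set ℕ) (P.p ^ k)
  have hfin : Finite (homPE N (ZMod (P.p ^ k))) := by
    apply Nat.finite_of_card_ne_zero
    rw [card_homPE N (P.p ^ k) hn]
    exact (pow_pos hn _).ne'
  have hnt : Nontrivial (Zbar ⧸ 𝔪) := Ideal.Quotient.nontrivial_iff.2 h𝔪.ne_top
  have hpk𝔪 : (((P.p ^ k : ℕ) : ℕ) : Zbar) ∈ 𝔪 := by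
    rw [Nat.cast_pow]
    exact Ideal.pow_mem_of_mem 𝔪 hp𝔪 k (Nat.pos_of_ne_zero hk)
  obtain ⟨y, hy0, hy⟩ := Fermat.Agent.S29.Socle.exists_ne_zero_killed
    (M := homPE N (ZMod (P.p ^ k))) (RingHom.ker θ) (RingHom.ker_ne_top θ) (by
      intro Q hQ
      have h1 := aeval_mem_span_of_forall_smul_eq_zero N (∅ : Set ℕ) (P.p ^ k) hn χ Q hQ
      rw [RingHom.mem_ker]
      refine Ideal.Quotient.eq_zero_iff_mem.2 ?_
      exact (Ideal.span_singleton_le_iff_mem 𝔪).2 hpk𝔪 h1)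
  refine ⟨mult.symm y, fun h => hy0 ?_, ?_⟩
  · rw [← mult.apply_symm_apply y, h, _root_.map_zero]
  intro ℓ _ hℓ hgood hℓS H a ha
  have hℓN : ¬ ℓ ∣ N := fun h => hℓS (Dvd.dvd.mul_right h _)
  have hℓp : ℓ ≠ P.p := fun h => hℓS (h ▸ Dvd.intro_left N rfl)
  obtain ⟨a', ha', hmem⟩ := hcong ℓ hℓ hgood hℓN hℓp
  have hχ : χ (tOf N ∅ ℓ) = a' := by
    apply Subtype.ext
    rw [tOf_eq N ∅ hℓ hℓN (Set.notMem_empty ℓ), coe_eigenCharZ, eigenChar_T, ha']
  have hdvd : ((W.apOfModel ℓ : ℤ) : Zbar) - ((a : ℕ) : Zbar) ∈ 𝔪 := by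
    have h1 : ((P.p : ℕ) : ℤ) ∣ W.apOfModel ℓ - (a : ℤ) := by
      rw [← ZMod.intCast_zmod_eq_zero_iff_dvd]
      push_cast
      rw [ha, sub_self]
    obtain ⟨c, hc⟩ := h1
    have h2 : ((W.apOfModel ℓ : ℤ) : Zbar) - ((a : ℕ) : Zbar) = (P.p : Zbar) * (c : Zbar) := by
      have := congrArg (fun z : ℤ => (z : Zbar)) hc
      push_cast at this
      exact this
    rw [h2]
    exact 𝔪.mul_mem_right _ hp𝔪
  have hker : (MvPolynomial.X ℓ - (a : MvPolynomial ℕ ℤ)) ∈ RingHom.ker θ := by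
    rw [RingHom.mem_ker]
    refine Ideal.Quotient.eq_zero_iff_mem.2 ?_
    have h3 : (MvPolynomial.aeval fun ℓ => χ (tOf N ∅ ℓ)).toRingHom
        (MvPolynomial.X ℓ - (a : MvPolynomial ℕ ℤ)) =
        (a' - ((W.apOfModel ℓ : ℤ) : Zbar)) + (((W.apOfModel ℓ : ℤ) : Zbar) - ((a : ℕ) : Zbar)) := by
      rw [map_sub, map_natCast]
      show MvPolynomial.aeval (fun ℓ => χ (tOf N ∅ ℓ)) (MvPolynomial.X ℓ) - _ = _
      rw [MvPolynomial.aeval_X, hχ]
      ring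
    rw [h3]
    exact 𝔪.add_mem hmem hdvd
  have hXy : (MvPolynomial.X ℓ : MvPolynomial ℕ ℤ) • y = a • y := by
    have h4 := hy _ hker
    rw [sub_smul, Nat.cast_smul_eq_nsmul, sub_eq_zero] at h4
    exact h4
  apply mult.injective
  apply Subtype.ext
  rw [hmult ℓ hℓ hℓN H (mult.symm y), mult.apply_symm_apply, map_nsmul, mult.apply_symm_apply,
    ← hXy, coe_X_smul N ∅ (P.p ^ k) hℓ hℓN (Set.notMem_empty ℓ)]

/-- The `m`-part of `E.W N (p ^ k)` is nonzero (`k ≥ 1`). -/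
theorem exists_isGenN (P : FreyPackage) (N : ℕ) [NeZero N] (hmod : P.ModularRepOfLevel N) :
    ∃ W : WeierstrassCurve ℤ, W.IsIntegralModelOf P.freyCurve ∧
      ∀ k : ℕ, k ≠ 0 → ∃ x : E.W N (P.p ^ k), x ≠ 0 ∧ IsGenN P W N (N * P.p) (P.p ^ k) x := by
  obtain ⟨W, hW, h⟩ := exists_isEigN P N hmod
  refine ⟨W, hW, fun k hk => ?_⟩
  obtain ⟨x, hx0, hx⟩ := h k hk
  exact ⟨x, hx0, hx.isGenN⟩

end Fermat.Agent.S43.Dict

end
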