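/-
Row 37 (S43), block DICT: `NodeNorm` (the norms `N1`, `N2` from level `M q` to level `M` preserve
generalised eigenvectors), from the Hecke equivariance of the two norm maps.
-/
import Fermat.Agent.S43.Dict.Contract
import Fermat.Agent.S44.V.NormBeta

set_option autoImplicit false

noncomputable section

namespace Fermat.Agent.S43.Dict

open ModularCurve AlgebraicCurve Fermat.Agent.S24 Fermat.Agent.GAL
open Fermat.Agent.S36.Norm (N1 N2)

/-- An additive map intertwining `T'` and `T` intertwines the iterates of `T' - a` and `T - a`. -/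
theorem norm_map_iterate {X Y : Type*} [AddCommGroup X] [AddCommGroup Y] (f : X →+ Y)
    (T' : X → X) (T : Y → Y) (h : ∀ x, f (T' x) = T (f x)) (a k : ℕ) (x : X) :
    f ((fun y => T' y - a • y)^[k] x) = (fun y => T y - a • y)^[k] (f x) := by
  induction k with
  | zero => rfl
  | succ k ih =>
    rw [Function.iterate_succ_apply', Function.iterate_succ_apply', map_sub, h, map_nsmul, ih]

theorem nodeNorm : NodeNorm := by
  intro P W M q S _ _ hq hqM hS x hx
  refine ⟨?_, ?_⟩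
  · intro ℓ _ hℓ hgood hℓS H a ha
    have hℓN : ¬ ℓ ∣ M * q := fun h => hℓS (h.trans hS)
    have hℓM : ¬ ℓ ∣ M := fun h => hℓN (h.mul_right _)
    obtain ⟨H'⟩ := E.nonempty_heckeOp (M * q) ℓ hℓ hℓN
    obtain ⟨k, hk⟩ := hx ℓ hℓ hgood hℓS H' a ha
    refine ⟨k, ?_⟩
    rw [← norm_map_iterate (N1 M P.p q) (H'.TW P.p) (H.TW P.p)
      (fun y => Fermat.Agent.S36.Norm.N1_TW hℓ hℓN (E.qExpand_heckeF M ℓ hℓ hℓM)
        (E.qExpand_heckeF (M * q) ℓ hℓ hℓN) H H' y) a k x, hk, map_zero]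
  · intro ℓ _ hℓ hgood hℓS H a ha
    have hℓN : ¬ ℓ ∣ M * q := fun h => hℓS (h.trans hS)
    obtain ⟨H'⟩ := E.nonempty_heckeOp (M * q) ℓ hℓ hℓN
    obtain ⟨k, hk⟩ := hx ℓ hℓ hgood hℓS H' a ha
    refine ⟨k, ?_⟩
    rw [← norm_map_iterate (N2 M P.p q) (H'.TW P.p) (H.TW P.p)
      (fun y => Fermat.Agent.S44.V.N2_TW' P.pp.pos hq hℓ hℓN H H' y) a k x, hk, map_zero]

end Fermat.Agent.S43.Dict

end
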