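/-
Row 37 (S43), block DICT (iii), characteristic zero (helper79): if `ρ̄` is NOT modular of level `M`, the Kummer model
`E.W M p` of `J₀(M)[p]` contains no nonzero eigenvector for the `T_ℓ` (`ℓ` good, `ℓ ∤ M q p`) with eigenvalues `a_ℓ(E)`,
where `q` is an odd prime dividing `a b c` (`q` is bad for every integral model, so nothing is asked at `q`).
-/
import Fermat.Agent.S43.Dict.BadModel
import Fermat.Agent.S44.V.Old
import Fermat.Agent.GAL.Mult.Final

set_option autoImplicit false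

noncomputable section

namespace Fermat.Agent.S43.Dict

open ModularCurve AlgebraicCurve Fermat.Agent.S24 Fermat.Agent.GAL
open Fermat.Agent.S44.V (IsEig)

/-- the condition at `q` is empty -/
theorem isEig_of_bad {P : FreyPackage} {W : WeierstrassCurve ℤ} {M q : ℕ} (hq : q.Prime)
    (hbad : ¬ W.IsGoodPrimeFor q) {y : E.W M P.p} (h : IsEig P W M (M * q * P.p) y) :
    IsEig P W M (M * P.p) y := by
  intro ℓ _ hℓ hg hℓS H a ha
  refine h ℓ hℓ hg ?_ H a ha
  intro hd
  rcases (Nat.Prime.dvd_mul hℓ).1 hd with h1 | h1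
  · rcases (Nat.Prime.dvd_mul hℓ).1 h1 with h2 | h2
    · exact hℓS (h2.mul_right _)
    · have : ℓ = q := (Nat.prime_dvd_prime_iff_eq hℓ hq).1 h2
      exact hbad (this ▸ hg)
  · exact hℓS (h1.mul_left _)

/-- a nonzero eigenvector at level `M` (primes `ℓ ∤ M q p`) gives `ModularRepOfLevel M` -/
theorem modularRepOfLevel_of_isEig (P : FreyPackage) (W : WeierstrassCurve ℤ)
    (hW : W.IsIntegralModelOf P.freyCurve) (M q : ℕ) [NeZero M] (hq : q.Prime) (hq2 : q ≠ 2)
    (hqabc : (q : ℤ) ∣ P.a * P.b * P.c) (y : E.W M P.p) (hy : y ≠ 0)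
    (h : IsEig P W M (M * q * P.p) y) : P.ModularRepOfLevel M :=
  S44.V.nodeOld Mult.heckeOpStatement Mult.multStatement P W M hW y hy
    (isEig_of_bad hq (not_isGoodPrimeFor P hq hq2 hqabc W hW) h)

/-- **DICT (iii), characteristic zero, eigenvectors.** -/
theorem eq_zero_of_isEig (P : FreyPackage) (W : WeierstrassCurve ℤ)
    (hW : W.IsIntegralModelOf P.freyCurve) (M q : ℕ) [NeZero M] (hq : q.Prime) (hq2 : q ≠ 2)
    (hqabc : (q : ℤ) ∣ P.a * P.b * P.c) (hnot : ¬ P.ModularRepOfLevel M) (y : E.W M P.p)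
    (h : IsEig P W M (M * q * P.p) y) : y = 0 := by
  by_contra hy
  exact hnot (modularRepOfLevel_of_isEig P W hW M q hq hq2 hqabc y hy h)

end Fermat.Agent.S43.Dict

end
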