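/-
Row 37 (S43), block DICT (architect helper101), node `NodeOld` (task S43-DICT-OLD, helper230):
a nonzero eigenvector at level `M` (away from `M q p`, `q` bad for `W`) in the Kummer model gives
`ModularRepOfLevel M`.  From `S44.V.nodeOld` and `Dict.isEig_of_bad` (helper79, `Dict/Old.lean`).
-/
import Fermat.Agent.S43.Dict.Contract
import Fermat.Agent.S43.Dict.Old
import Fermat.Agent.GAL.Mult.Statement

set_option autoImplicit false

namespace Fermat.Agent.S43.Dict

open Fermat.Agent.GAL

theorem nodeOld (hH : S36.HeckeOpStatement) (hM : S36.MultStatement) : NodeOld :=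
  fun P W M _ _ hW hq hbad y hy h =>
    S44.V.nodeOld hH hM P W M hW y hy (isEig_of_bad hq hbad h)

theorem nodeOld' : NodeOld := nodeOld GAL.Mult.heckeOpStatement GAL.Mult.multStatement

end Fermat.Agent.S43.Dict
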