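/-
Row 37 (S43), block DICT.  `nodeSocle : NodeSocle`: a nonzero generalised eigenvector of the Hecke operators in the
Kummer model `E.W N p` gives a nonzero eigenvector.
-/
import Fermat.Agent.S43.Dict.Contract
import Fermat.Agent.NV2.Consumer
import Fermat.Agent.GAL.E.Main

set_option autoImplicit false

noncomputable section

namespace Fermat.Agent.S43.Dict

open ModularCurve AlgebraicCurve Fermat.Agent.S24 Fermat.Agent.GAL
open Fermat.Agent.S44.V (IsEig)

/-- A commuting family of endomorphisms of a finite abelian group, each of them nilpotent on a nonzero element `x`,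
has a nonzero common null vector. -/
theorem socle_exists_common_null {G ι : Type*} [AddCommGroup G] [Finite G] (D : ι → G →+ G)
    (hc : ∀ i j x, D i (D j x) = D j (D i x)) (x : G) (hx : x ≠ 0)
    (hn : ∀ i, ∃ k : ℕ, (D i)^[k] x = 0) : ∃ y : G, y ≠ 0 ∧ ∀ i, D i y = 0 := by
  classical
  have hcomm : ∀ i j, Function.Commute (D i) (D j) := fun i j y => hc i j y
  let 𝒮 : Set (AddSubgroup G) := {S | S ≠ ⊥ ∧ (∀ i, ∀ y ∈ S, D i y ∈ S) ∧
    ∀ y ∈ S, ∀ i, ∃ k : ℕ, (D i)^[k] y = 0}
  let Gen : AddSubgroup G :=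
    { carrier := {y | ∀ i, ∃ k : ℕ, (D i)^[k] y = 0}
      zero_mem' := fun i => ⟨0, rfl⟩
      add_mem' := by
        intro a b ha hb i
        obtain ⟨k₁, h₁⟩ := ha i
        obtain ⟨k₂, h₂⟩ := hb i
        refine ⟨k₁ + k₂, ?_⟩
        rw [iterate_map_add, add_comm k₁ k₂, Function.iterate_add_apply, h₁, iterate_map_zero,
          add_comm k₂ k₁, Function.iterate_add_apply, h₂, iterate_map_zero, add_zero]
      neg_mem' := by
        intro a ha i
        obtain ⟨k, h⟩ := ha i
        exact ⟨k, by rw [iterate_map_neg, h, neg_zero]⟩ }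
  have hGen : Gen ∈ 𝒮 := by
    refine ⟨?_, ?_, fun y hy => hy⟩
    · intro h
      have : x ∈ Gen := hn
      rw [h, AddSubgroup.mem_bot] at this
      exact hx this
    · intro j y hy i
      obtain ⟨k, h⟩ := hy i
      exact ⟨k, by rw [((hcomm i j).iterate_left k) y, h, map_zero]⟩
  obtain ⟨S, ⟨hSne, hSst, hSnil⟩, hmin⟩ :=
    (wellFounded_lt (α := AddSubgroup G)).has_min 𝒮 ⟨Gen, hGen⟩
  have hit : ∀ i (k : ℕ), ∀ y ∈ S, (D i)^[k] y ∈ S := by
    intro i k
    induction k with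
    | zero => intro y hy; exact hy
    | succ k ih => intro y hy; rw [Function.iterate_succ_apply']; exact hSst i _ (ih y hy)
  have key : ∀ i, ∀ y ∈ S, D i y = 0 := by
    intro i
    let K : AddSubgroup G := S ⊓ (D i).ker
    have hKle : K ≤ S := inf_le_left
    have hK : K ∈ 𝒮 := by
      refine ⟨?_, ?_, fun y hy => hSnil y hy.1⟩
      · obtain ⟨y, hyS, hy0⟩ := (AddSubgroup.ne_bot_iff_exists_ne_zero).1 hSne |>.elim
          (fun y hy => (⟨y.1, y.2, fun h => hy (Subtype.ext h)⟩ : ∃ y ∈ S, y ≠ 0))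
        have hex := hSnil y hyS i
        have hk := Nat.find_spec hex
        have hk0 : Nat.find hex ≠ 0 := by
          intro h0
          rw [h0] at hk
          exact hy0 hk
        obtain ⟨m, hm⟩ := Nat.exists_eq_succ_of_ne_zero hk0
        have hz : (D i)^[m] y ≠ 0 := Nat.find_min hex (by rw [hm]; exact Nat.lt_succ_self m)
        intro hbot
        have hmem : (D i)^[m] y ∈ K := by
          refine ⟨hit i m y hyS, ?_⟩
          show D i ((D i)^[m] y) = 0
          have h1 := Function.iterate_succ_apply' (D i) m y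
          rw [← h1, ← hm]
          exact hk
        rw [hbot, AddSubgroup.mem_bot] at hmem
        exact hz hmem
      · intro j y hy
        refine ⟨hSst j y hy.1, ?_⟩
        show D i (D j y) = 0
        have h0 : D i y = 0 := hy.2
        rw [hc i j y, h0, map_zero]
    have hKS : K = S := by
      by_contra hne
      exact hmin K hK (lt_of_le_of_ne hKle hne)
    intro y hy
    have : y ∈ K := by rw [hKS]; exact hy
    exact this.2
  obtain ⟨y, hy⟩ := (AddSubgroup.ne_bot_iff_exists_ne_zero).1 hSne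
  exact ⟨y.1, fun h => hy (Subtype.ext h), fun i => key i y.1 y.2⟩

/-- The index type of the operators `T_ℓ - a`. -/
structure SocleIdx (P : FreyPackage) (W : WeierstrassCurve ℤ) (N S : ℕ) where
  ℓ : ℕ
  ne : NeZero ℓ
  prime : ℓ.Prime
  good : W.IsGoodPrimeFor ℓ
  ndvd : ¬ ℓ ∣ S
  H : E.HeckeOp N ℓ
  a : ℕ
  ha : (a : ZMod P.p) = ((W.apOfModel ℓ : ℤ) : ZMod P.p)

theorem socle_add {G : Type*} [AddCommGroup G] (T : G → G) (hT : ∀ a b, T (a + b) = T a + T b)
    (n : ℕ) (a b : G) : T (a + b) - n • (a + b) = (T a - n • a) + (T b - n • b) := by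
  rw [hT, nsmul_add]
  abel

/-- The operator `T_ℓ - a`. -/
def SocleIdx.D {P : FreyPackage} {W : WeierstrassCurve ℤ} {N S : ℕ} (i : SocleIdx P W N S) :
    E.W N P.p →+ E.W N P.p :=
  letI := i.ne
  AddMonoidHom.mk' (fun y => i.H.TW P.p y - i.a • y) (by
    intro a b
    exact socle_add (fun y => i.H.TW P.p y) (fun a b => map_add (i.H.TW P.p) a b) i.a a b)

theorem SocleIdx.coe_D {P : FreyPackage} {W : WeierstrassCurve ℤ} {N S : ℕ}
    (i : SocleIdx P W N S) :
    (⇑i.D : E.W N P.p → E.W N P.p) = (letI := i.ne; fun y => i.H.TW P.p y - i.a • y) := rfl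

theorem socle_TW_comm {N n ℓ ℓ' : ℕ} [h : NeZero ℓ] [h' : NeZero ℓ'] (hℓ : ℓ.Prime) (hℓ' : ℓ'.Prime)
    (H : E.HeckeOp N ℓ) (H' : E.HeckeOp N ℓ') (y : E.W N n) :
    H.TW n (H'.TW n y) = H'.TW n (H.TW n y) := by
  by_cases he : ℓ = ℓ'
  · subst he
    have hT : H.T = H'.T := E.HeckeOp.T_eq H H'
    have key : ∀ x : E.W N n, H.TW n x = H'.TW n x := by
      intro x
      obtain ⟨u, rfl⟩ := E.cls_surjective x
      rw [E.HeckeOp.TW_cls, E.HeckeOp.TW_cls]
      refine congrArg E.cls (Subtype.ext (Units.ext ?_))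
      show H.T _ = H'.T _
      rw [hT]
    rw [key, key]
  · have hc : Nat.Coprime ℓ ℓ' := (Nat.coprime_primes hℓ hℓ').2 he
    exact DFunLike.congr_fun (E.HeckeOp.commute_TW_TW hc H H' n).eq y

theorem socle_sub_comm {G : Type*} [AddCommGroup G] (T T' : G → G)
    (hs : ∀ a b, T (a - b) = T a - T b) (hs' : ∀ a b, T' (a - b) = T' a - T' b)
    (hn : ∀ (m : ℕ) a, T (m • a) = m • T a) (hn' : ∀ (m : ℕ) a, T' (m • a) = m • T' a)
    (a a' : ℕ) (z : G) (h : T (T' z) = T' (T z)) :
    T (T' z - a' • z) - a • (T' z - a' • z) = T' (T z - a • z) - a' • (T z - a • z) := by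
  rw [hs, hs', hn, hn', h, smul_sub, smul_sub, smul_comm a a' z]
  abel

/-- **Node Socle.** -/
theorem nodeSocle : NodeSocle := by
  intro P W N S _ _ x hx hgen
  have hfin : Finite (E.W N P.p) := NV2.finite_W N P.p P.pp.pos
  have hcomm : ∀ (i j : SocleIdx P W N S) (z : E.W N P.p), i.D (j.D z) = j.D (i.D z) := by
    intro i j z
    have := i.ne
    have := j.ne
    rw [SocleIdx.coe_D, SocleIdx.coe_D]
    exact socle_sub_comm (fun y => i.H.TW P.p y) (fun y => j.H.TW P.p y)
      (fun a b => map_sub (i.H.TW P.p) a b) (fun a b => map_sub (j.H.TW P.p) a b)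
      (fun m a => map_nsmul (i.H.TW P.p) m a) (fun m a => map_nsmul (j.H.TW P.p) m a) i.a j.a z
      (socle_TW_comm i.prime j.prime i.H j.H z)
  have hnil : ∀ i : SocleIdx P W N S, ∃ k : ℕ, (i.D)^[k] x = 0 := by
    intro i
    have := i.ne
    obtain ⟨k, hk⟩ := hgen i.ℓ i.prime i.good i.ndvd i.H i.a i.ha
    refine ⟨k, ?_⟩
    rw [SocleIdx.coe_D]
    exact hk
  obtain ⟨y, hy0, hy⟩ := socle_exists_common_null (fun i : SocleIdx P W N S => i.D) hcomm x hx hnil
  refine ⟨y, hy0, ?_⟩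
  intro ℓ _ hℓ hgood hnd H a ha
  have h1 := hy ⟨ℓ, inferInstance, hℓ, hgood, hnd, H, a, ha⟩
  rw [SocleIdx.coe_D] at h1
  exact sub_eq_zero.1 h1

end Fermat.Agent.S43.Dict

end
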